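/-
S29 row, layer M: ADAPTER  M4b (helper822's Kummer relation `IsKum`)  ⟹  `M.exists_bridge`
(helper30's piece BR of the canonical chain).  helper621.

`exists_bridge_of_kumPieces` takes the five M4b facts about `IsKum` in EXACTLY the shapes of
`origin/helper822:Fermat/Agent/S29/M4b/Skeleton.lean`
(`isKum_exists`, `isKum_unique`, `isKum_zero_right`, `isKum_add`, `isKum_hecke`) plus the existence
part of piece `HCoh`, and returns EXACTLY the conclusion of `Fermat.Agent.S29.M.exists_bridge`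
(for every modulus `p ≥ 1`).  So the final file is
`exists_bridge_of_kumPieces N p ⟨isKum_exists N p, isKum_unique N p, …⟩ hfac`.
-/
import Fermat.Agent.S29.M.Defs
import Fermat.Agent.S29.M4b.Defs

set_option autoImplicit false
set_option linter.style.haveILetI false
set_option linter.unusedSectionVars false

noncomputable section

namespace Fermat.Agent.S29.H621

open ModularCurve AlgebraicCurve CongruenceSubgroup
open Fermat.Agent.S29 Fermat.Agent.S29.M4b
open scoped MatrixGroups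

/-! ### Characters: `peHoms` versus `IsParHom` -/

/-- The function `Γ₀(N) → ℤ/p` underlying an additive character. -/
def charFn {N p : ℕ} (χ : Additive (Gamma0 N) →+ ZMod p) : G0 N → ZMod p :=
  fun γ => χ (Additive.ofMul γ)

@[simp] theorem charFn_apply {N p : ℕ} (χ : Additive (Gamma0 N) →+ ZMod p) (γ : G0 N) :
    charFn χ γ = χ (Additive.ofMul γ) := rfl

theorem charFn_add {N p : ℕ} (χ χ' : Additive (Gamma0 N) →+ ZMod p) :
    charFn (χ + χ') = charFn χ + charFn χ' := rfl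

theorem charFn_injective {N p : ℕ} :
    Function.Injective (charFn : (Additive (Gamma0 N) →+ ZMod p) → G0 N → ZMod p) := by
  intro χ χ' h
  ext γ
  exact congrFun h (Additive.toMul γ)

theorem charFn_eq_zero {N p : ℕ} {χ : Additive (Gamma0 N) →+ ZMod p} (h : charFn χ = 0) :
    χ = 0 :=
  charFn_injective (by rw [h]; rfl)

theorem isParHom_charFn {N p : ℕ} {χ : Additive (Gamma0 N) →+ ZMod p}
    (hχ : χ ∈ M.peHoms N p) : IsParHom (charFn χ) where
  map_mul γ γ' := by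
    show χ (Additive.ofMul (γ * γ')) = _
    rw [ofMul_mul, map_add]
    rfl
  parabolic γ hγ := by
    refine hχ.1 γ ?_
    have h2 : (((γ : SL(2, ℤ)) : Matrix (Fin 2) (Fin 2) ℤ).trace = 2 ∨
        ((γ : SL(2, ℤ)) : Matrix (Fin 2) (Fin 2) ℤ).trace = -2) := hγ
    rcases h2 with h | h <;> rw [h] <;> norm_num
  elliptic γ n hn hγn := by
    refine hχ.2 γ ?_
    exact isOfFinOrder_iff_pow_eq_one.mpr ⟨n, hn, hγn⟩

/-! ### Hecke representatives: `Fin (ℓ + 1)` versus `Option (Fin ℓ)` -/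

/-- The reindexing `Option (Fin ℓ) ≃ Fin (ℓ + 1)`: `some b ↦ b`, `none ↦ ℓ`. -/
def repEquiv (ℓ : ℕ) : Option (Fin ℓ) ≃ Fin (ℓ + 1) where
  toFun
    | none => Fin.last ℓ
    | some b => b.castSucc
  invFun i := if h : (i : ℕ) < ℓ then some ⟨i, h⟩ else none
  left_inv := by
    rintro (_ | b)
    · simp
    · simp
  right_inv := by
    intro i
    by_cases h : (i : ℕ) < ℓ
    · simp [h]
    · simp only [h, ↓reduceDIte]
      apply Fin.ext
      have := i.2
      simp only [Fin.val_last]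
      omega

theorem heckeRep_repEquiv (ℓ : ℕ) (i : Option (Fin ℓ)) :
    M.heckeRep ℓ (repEquiv ℓ i) = Fermat.Agent.S29.heckeRep ℓ i := by
  rcases i with _ | b
  · simp [repEquiv, M.heckeRep, Fermat.Agent.S29.heckeRep]
  · have hb : ((b.castSucc : Fin (ℓ + 1)) : ℕ) < ℓ := by simp
    simp [repEquiv, M.heckeRep, Fermat.Agent.S29.heckeRep]

/-- helper30's transfer relation implies helper822's. -/
theorem isTransfer_of_isHeckeImage {N ℓ p : ℕ} {χ χ' : Additive (Gamma0 N) →+ ZMod p}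
    (h : M.IsHeckeImage N ℓ χ χ') : IsTransfer N ℓ (charFn χ) (charFn χ') := by
  intro γ π δ hfac
  have h1 := h γ (fun i => repEquiv ℓ (π ((repEquiv ℓ).symm i)))
    (fun i => δ ((repEquiv ℓ).symm i)) (fun i => by
      have h2 : Fermat.Agent.S29.heckeRep ℓ ((repEquiv ℓ).symm i) * γ.mat
          = (δ ((repEquiv ℓ).symm i)).mat
            * Fermat.Agent.S29.heckeRep ℓ (π ((repEquiv ℓ).symm i)) :=
        hfac ((repEquiv ℓ).symm i)
      have h3 : M.heckeRep ℓ i = Fermat.Agent.S29.heckeRep ℓ ((repEquiv ℓ).symm i) := by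
        rw [← heckeRep_repEquiv, Equiv.apply_symm_apply]
      rw [h3, heckeRep_repEquiv]
      exact h2)
  show χ' (Additive.ofMul γ) = ∑ i, χ (Additive.ofMul (δ i))
  rw [h1]
  exact Equiv.sum_comp (repEquiv ℓ).symm (fun i => χ (Additive.ofMul (δ i)))

/-! ### The adapter -/

/-- The five facts about the Kummer relation proved by sub-layer M4b
(exact shapes of `M4b/Skeleton.lean`). -/
structure KumPieces (N p : ℕ) [NeZero N] : Prop where
  exists_isKum : ∀ {c : G0 N → ZMod p}, IsParHom c → ∃ x : JZero N, IsKum N p c x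
  unique : ∀ {c : G0 N → ZMod p} {x x' : JZero N}, IsKum N p c x → IsKum N p c x' → x = x'
  zero_right : ∀ {c : G0 N → ZMod p}, IsKum N p c (0 : JZero N) → c = 0
  add : ∀ {c c' : G0 N → ZMod p} {x x' : JZero N},
    IsKum N p c x → IsKum N p c' x' → IsKum N p (c + c') (x + x')
  hecke : ∀ (ℓ : Nat.Primes), ¬ (ℓ : ℕ) ∣ N * p →
    (∀ γ : G0 N, ∃ (π : Equiv.Perm (Option (Fin (ℓ : ℕ))))
      (δ : Option (Fin (ℓ : ℕ)) → G0 N), ∀ i, IsHeckeFactor (ℓ : ℕ) γ i (π i, δ i)) →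
    ∀ {c c' : G0 N → ZMod p}, IsParHom c → IsTransfer N (ℓ : ℕ) c c' →
      ∀ {x : JZero N}, IsKum N p c x → IsKum N p c' (heckeOperatorBar N ℓ x)

theorem isKum_mem_torsion {N p : ℕ} [NeZero N] {c : G0 N → ZMod p} {x : JZero N}
    (h : IsKum N p c x) :
    x ∈ Pic0.torsion (AlgebraicClosure ℚ) (modularFunctionFieldBar N) p := by
  obtain ⟨f, t, U, -, hx, -, -⟩ := h
  exact Pic0.mem_torsion.mpr hx.zsmul_eq_zero

/-- **Adapter**: the M4b pieces give helper30's piece `BR` (`M.exists_bridge`), for every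
modulus `p`, together with the characterisation of `Ξ` by `IsKum`. -/
theorem exists_bridge_of_kumPieces (N p : ℕ) [NeZero N] (h : KumPieces N p)
    (hfac : ∀ ℓ : Nat.Primes, ¬ (ℓ : ℕ) ∣ N * p → ∀ γ : G0 N,
      ∃ (π : Equiv.Perm (Option (Fin (ℓ : ℕ)))) (δ : Option (Fin (ℓ : ℕ)) → G0 N),
        ∀ i, IsHeckeFactor (ℓ : ℕ) γ i (π i, δ i)) :
    ∃ Ξ : M.peHoms N p →ₗ[ZMod p] M.Vp N p, Function.Injective Ξ ∧
      (∀ χ : M.peHoms N p, IsKum N p (charFn (χ : Additive (Gamma0 N) →+ ZMod p))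
        ((Ξ χ : M.Vp N p) : JZero N)) ∧
      ∀ (ℓ : ℕ) (hℓ : ℓ.Prime), ¬ ℓ ∣ N * p → ∀ χ χ' : M.peHoms N p,
        M.IsHeckeImage N ℓ (χ : Additive (Gamma0 N) →+ ZMod p)
          (χ' : Additive (Gamma0 N) →+ ZMod p) →
        M.heckeTors N p ⟨ℓ, hℓ⟩ (Ξ χ) = Ξ χ' := by
  classical
  have hex : ∀ χ : M.peHoms N p, ∃ x : JZero N,
      IsKum N p (charFn (χ : Additive (Gamma0 N) →+ ZMod p)) x :=
    fun χ => h.exists_isKum (isParHom_charFn χ.2)
  let ξ : M.peHoms N p → M.Vp N p :=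
    fun χ => ⟨(hex χ).choose, isKum_mem_torsion (hex χ).choose_spec⟩
  have hξ : ∀ χ : M.peHoms N p,
      IsKum N p (charFn (χ : Additive (Gamma0 N) →+ ZMod p)) ((ξ χ : M.Vp N p) : JZero N) :=
    fun χ => (hex χ).choose_spec
  have hadd : ∀ χ χ' : M.peHoms N p, ξ (χ + χ') = ξ χ + ξ χ' := by
    intro χ χ'
    apply Subtype.ext
    exact h.unique (hξ (χ + χ')) (h.add (hξ χ) (hξ χ'))
  have hzero : ξ 0 = 0 := by
    have := hadd 0 0
    rw [add_zero] at this
    exact left_eq_add.mp this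
  let Ξ₀ : M.peHoms N p →+ M.Vp N p :=
    { toFun := ξ
      map_zero' := hzero
      map_add' := hadd }
  refine ⟨Ξ₀.toZModLinearMap p, ?_, hξ, ?_⟩
  · rw [injective_iff_map_eq_zero]
    intro χ hχ0
    have h0 : ((ξ χ : M.Vp N p) : JZero N) = 0 := congrArg Subtype.val hχ0
    have h1 := hξ χ
    rw [h0] at h1
    exact Subtype.ext (charFn_eq_zero (h.zero_right h1))
  · intro ℓ hℓ hℓn χ χ' hT
    apply Subtype.ext
    have h1 : IsKum N p (charFn (χ' : Additive (Gamma0 N) →+ ZMod p))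
        (heckeOperatorBar N ⟨ℓ, hℓ⟩ ((ξ χ : M.Vp N p) : JZero N)) :=
      h.hecke ⟨ℓ, hℓ⟩ hℓn (hfac ⟨ℓ, hℓ⟩ hℓn) (isParHom_charFn χ.2)
        (isTransfer_of_isHeckeImage hT) (hξ χ)
    exact h.unique h1 (hξ χ')

/-- The adapter in the exact shape of `Fermat.Agent.S29.M.exists_bridge`. -/
theorem exists_bridge_of_kumPieces' (N p : ℕ) [NeZero N] (h : KumPieces N p)
    (hfac : ∀ ℓ : Nat.Primes, ¬ (ℓ : ℕ) ∣ N * p → ∀ γ : G0 N,
      ∃ (π : Equiv.Perm (Option (Fin (ℓ : ℕ)))) (δ : Option (Fin (ℓ : ℕ)) → G0 N),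
        ∀ i, IsHeckeFactor (ℓ : ℕ) γ i (π i, δ i)) :
    ∃ Ξ : M.peHoms N p →ₗ[ZMod p] M.Vp N p, Function.Injective Ξ ∧
      ∀ (ℓ : ℕ) (hℓ : ℓ.Prime), ¬ ℓ ∣ N * p → ∀ χ χ' : M.peHoms N p,
        M.IsHeckeImage N ℓ (χ : Additive (Gamma0 N) →+ ZMod p)
          (χ' : Additive (Gamma0 N) →+ ZMod p) →
        M.heckeTors N p ⟨ℓ, hℓ⟩ (Ξ χ) = Ξ χ' := by
  obtain ⟨Ξ, h1, -, h3⟩ := exists_bridge_of_kumPieces N p h hfac
  exact ⟨Ξ, h1, h3⟩

end Fermat.Agent.S29.H621
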