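/-
S29 row, layer M, piece BR (the bridge `Hom_pe(Γ₀(N), ℤ/n) → J₀(N)[n]`): TOP ASSEMBLY (helper621).

`exists_bridge_of_isKummerRel` proves the statement of `Fermat.Agent.S29.M.exists_bridge`
(for every modulus `n ≠ 0`, not only primes) from

* an ABSTRACT Kummer relation `R χ f` ("`f = h ^ n` for a meromorphic `h` on `ℍ` with
  `h ∘ γ = ζ ^ χ(γ) • h`") satisfying the six properties of `IsKummerRel`
  (each one = one analytic piece: TES+MERO+DESC, DICT, trivial, MERO, ROOT-uniqueness, NORM);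
* `HeckeInputsAlong` (piece HIA);
* `HasPrincipalDivisors` and the constant lemma for `modularFunctionFieldBar N` (both on main).

Everything here is pure Prelude-language algebra on top of the landed `H455.IsKummerClass` API.
-/
import Fermat.Agent.S29.M.Defs
import Fermat.Agent.S29.H455.KummerCorr

set_option autoImplicit false
set_option linter.style.haveILetI false
set_option linter.unusedSectionVars false

noncomputable section

namespace Fermat.Agent.S29.H621

open ModularCurve AlgebraicCurve CongruenceSubgroup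
open Fermat.Agent.S29 Fermat.Agent.S29.M Fermat.Agent.S29.H455
open scoped MatrixGroups

/-! ### Generic part -/

section Generic

variable {K F : Type*} [Field K] [Field F] [Algebra K F]

/-- If every order of `f` is divisible by `n ≠ 0`, then `f` has a Kummer class. -/
theorem BridgeAsm_exists_isKummerClass_of_dvd [HasPrincipalDivisors K F] {n : ℤ} (hn : n ≠ 0)
    {f : F} (hf : f ≠ 0) (hdvd : ∀ v : Place K F, n ∣ v.ord f) :
    ∃ x : Pic0 K F, IsKummerClass n f x := by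
  obtain ⟨E, hE, hE0⟩ := HasPrincipalDivisors.exists_divisor (K := K) f hf
  let D : Divisor K F := E.mapRange (fun a => a / n) (by simp)
  have hD : ∀ v : Place K F, n * D v = v.ord f := by
    intro v
    have : D v = E v / n := Finsupp.mapRange_apply (hf := by simp)
    rw [this, hE v]
    exact Int.mul_ediv_cancel' (hdvd v)
  have hnD : n • D = E := by
    ext v
    rw [Finsupp.smul_apply, smul_eq_mul, hD, hE]
  have hdeg : Divisor.degree D = 0 := by
    have h1 : n • Divisor.degree D = 0 := by rw [← map_zsmul, hnD, hE0]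
    rcases smul_eq_zero.mp h1 with h | h
    · exact absurd h hn
    · exact h
  exact ⟨Pic0.mk ⟨D, hdeg⟩, hf, ⟨D, hdeg⟩, rfl, hD⟩

/-- The Kummer class does not change when `f` is multiplied by an `n`-th power
(natural-number exponent version of `IsKummerClass.mul_zpow`). -/
theorem BridgeAsm_isKummerClass_mul_pow [HasPrincipalDivisors K F] {n : ℕ} {f g : F}
    {x : Pic0 K F} (hx : IsKummerClass (n : ℤ) f x) (hg : g ≠ 0) :
    IsKummerClass (n : ℤ) (f * g ^ n) x := by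
  have := hx.mul_zpow hg
  rwa [zpow_natCast] at this

/-- If the Kummer class of `f` vanishes and functions without zeros and poles are constants which
are `n`-th powers, then `f` is an `n`-th power. -/
theorem BridgeAsm_exists_pow_eq_of_class_eq_zero {n : ℕ} (hn : n ≠ 0) {f : F}
    (hconst : ∀ u : F, u ≠ 0 → (∀ v : Place K F, v.ord u = 0) →
      ∃ b : F, b ≠ 0 ∧ u = b ^ n)
    (hx : IsKummerClass (n : ℤ) f (0 : Pic0 K F)) :
    ∃ g : F, g ≠ 0 ∧ f = g ^ n := by
  have hn' : (n : ℤ) ≠ 0 := by exact_mod_cast hn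
  obtain ⟨g, hg, hfg⟩ := (hx.eq_zero_iff hn').mp rfl
  have hf : f ≠ 0 := hx.ne_zero
  have hgn : g ^ n ≠ 0 := pow_ne_zero n hg
  have hu : f / g ^ n ≠ 0 := div_ne_zero hf hgn
  obtain ⟨b, hb, hbu⟩ := hconst (f / g ^ n) hu (fun v => by
    rw [div_eq_mul_inv, Place.ord_mul v hf (inv_ne_zero hgn), Place.ord_inv, hfg v,
      ← zpow_natCast, Place.ord_zpow]
    ring)
  refine ⟨b * g, mul_ne_zero hb hg, ?_⟩
  rw [mul_pow, ← hbu, div_mul_cancel₀ _ hgn]

end Generic

/-! ### The abstract Kummer relation -/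

/-- The abstract Kummer relation between characters `χ : Γ₀(N) → ℤ/n` (vanishing on parabolic
and finite-order elements) and nonzero modular functions `f ∈ ℚ̄(X₀(N))`.

Intended model: `R χ f` iff there is a nonzero meromorphic function `h` on the upper half plane
with `h (γ τ) = ζ ^ χ(γ) • h τ` for all `γ ∈ Γ₀(N)` (`ζ` a fixed primitive `n`-th root of unity)
and `h ^ n = f` (as meromorphic functions on `ℍ`). -/
structure IsKummerRel (N n : ℕ) [NeZero N]
    (R : (Additive (Gamma0 N) →+ ZMod n) → modularFunctionFieldBar N → Prop) : Prop where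
  /-- TES + MERO + DESC: every character has a function. -/
  exists_rel : ∀ χ ∈ peHoms N n, ∃ f : modularFunctionFieldBar N, f ≠ 0 ∧ R χ f
  /-- DICT: all orders of such a function are divisible by `n`. -/
  dvd_ord : ∀ χ ∈ peHoms N n, ∀ f : modularFunctionFieldBar N, f ≠ 0 → R χ f →
    ∀ v : Place (AlgebraicClosure ℚ) (modularFunctionFieldBar N), (n : ℤ) ∣ v.ord f
  /-- trivial: characters add when functions multiply. -/
  mul : ∀ χ ∈ peHoms N n, ∀ χ' ∈ peHoms N n, ∀ f f' : modularFunctionFieldBar N,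
    R χ f → R χ' f' → R (χ + χ') (f * f')
  /-- MERO (completeness of the function field): two functions with the same character differ by
  an `n`-th power of a modular function. -/
  unique : ∀ χ ∈ peHoms N n, ∀ f f' : modularFunctionFieldBar N, f ≠ 0 → f' ≠ 0 →
    R χ f → R χ f' → ∃ g : modularFunctionFieldBar N, g ≠ 0 ∧ f = f' * g ^ n
  /-- uniqueness of `n`-th roots up to roots of unity: an `n`-th power has trivial character. -/
  inj : ∀ χ ∈ peHoms N n, ∀ g : modularFunctionFieldBar N, g ≠ 0 → R χ (g ^ n) → χ = 0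
  /-- NORM: the norm of `f(q^ℓ)` from level `Nℓ` to level `N` has character `T_ℓ χ`. -/
  hecke : ∀ (ℓ : ℕ) (hℓ : ℓ.Prime), ¬ ℓ ∣ N * n → ∀ χ ∈ peHoms N n, ∀ χ' ∈ peHoms N n,
    IsHeckeImage N ℓ χ χ' → ∀ f : modularFunctionFieldBar N, f ≠ 0 → R χ f →
      haveI : NeZero ℓ := ⟨hℓ.ne_zero⟩
      R χ' (normAlong (heckeAlphaBar (AlgebraicClosure ℚ) N ℓ)
        (heckeBetaBar (AlgebraicClosure ℚ) N ℓ f))

section Assembly

variable {N n : ℕ} [NeZero N]
variable {R : (Additive (Gamma0 N) →+ ZMod n) → modularFunctionFieldBar N → Prop}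

/-- `x` is the Kummer class attached to the character `χ`. -/
def IsClassOf (R : (Additive (Gamma0 N) →+ ZMod n) → modularFunctionFieldBar N → Prop)
    (χ : Additive (Gamma0 N) →+ ZMod n) (x : JZero N) : Prop :=
  ∃ f : modularFunctionFieldBar N, R χ f ∧ IsKummerClass (n : ℤ) f x

variable [HasPrincipalDivisors (AlgebraicClosure ℚ) (modularFunctionFieldBar N)]

theorem IsKummerRel.exists_isClassOf (hR : IsKummerRel N n R) (hn : n ≠ 0)
    {χ : Additive (Gamma0 N) →+ ZMod n} (hχ : χ ∈ peHoms N n) :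
    ∃ x : JZero N, IsClassOf R χ x := by
  obtain ⟨f, hf, hRf⟩ := hR.exists_rel χ hχ
  obtain ⟨x, hx⟩ := BridgeAsm_exists_isKummerClass_of_dvd (K := AlgebraicClosure ℚ)
    (n := (n : ℤ)) (by exact_mod_cast hn) hf (hR.dvd_ord χ hχ f hf hRf)
  exact ⟨x, f, hRf, hx⟩

theorem IsKummerRel.isClassOf_unique (hR : IsKummerRel N n R) (hn : n ≠ 0)
    {χ : Additive (Gamma0 N) →+ ZMod n} (hχ : χ ∈ peHoms N n) {x y : JZero N}
    (hx : IsClassOf R χ x) (hy : IsClassOf R χ y) : x = y := by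
  obtain ⟨f, hRf, hfx⟩ := hx
  obtain ⟨f', hRf', hfy⟩ := hy
  obtain ⟨g, hg, hfg⟩ := hR.unique χ hχ f f' hfx.ne_zero hfy.ne_zero hRf hRf'
  have h1 : IsKummerClass (n : ℤ) f y := by
    rw [hfg]
    exact BridgeAsm_isKummerClass_mul_pow hfy hg
  exact IsKummerClass.unique (by exact_mod_cast hn) hfx h1

theorem IsKummerRel.isClassOf_add (hR : IsKummerRel N n R)
    {χ χ' : Additive (Gamma0 N) →+ ZMod n} (hχ : χ ∈ peHoms N n) (hχ' : χ' ∈ peHoms N n)
    {x y : JZero N} (hx : IsClassOf R χ x) (hy : IsClassOf R χ' y) :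
    IsClassOf R (χ + χ') (x + y) := by
  obtain ⟨f, hRf, hfx⟩ := hx
  obtain ⟨f', hRf', hfy⟩ := hy
  exact ⟨f * f', hR.mul χ hχ χ' hχ' f f' hRf hRf', hfx.add hfy⟩

theorem IsClassOf.mem_torsion {χ : Additive (Gamma0 N) →+ ZMod n} {x : JZero N}
    (hx : IsClassOf R χ x) :
    x ∈ Pic0.torsion (AlgebraicClosure ℚ) (modularFunctionFieldBar N) n := by
  obtain ⟨f, -, hfx⟩ := hx
  exact Pic0.mem_torsion.mpr hfx.zsmul_eq_zero

theorem IsKummerRel.eq_zero_of_isClassOf_zero (hR : IsKummerRel N n R) (hn : n ≠ 0)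
    (hconst : ∀ u : modularFunctionFieldBar N, u ≠ 0 →
      (∀ v : Place (AlgebraicClosure ℚ) (modularFunctionFieldBar N), v.ord u = 0) →
      ∃ c : AlgebraicClosure ℚ,
        u = algebraMap (AlgebraicClosure ℚ) (modularFunctionFieldBar N) c)
    {χ : Additive (Gamma0 N) →+ ZMod n} (hχ : χ ∈ peHoms N n)
    (hx : IsClassOf R χ (0 : JZero N)) : χ = 0 := by
  obtain ⟨f, hRf, hfx⟩ := hx
  have hpos : 0 < n := Nat.pos_of_ne_zero hn
  obtain ⟨g, hg, hfg⟩ := BridgeAsm_exists_pow_eq_of_class_eq_zero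
    (K := AlgebraicClosure ℚ) hn (fun u hu hord => by
      obtain ⟨c, hc⟩ := hconst u hu hord
      obtain ⟨b, hb⟩ := IsAlgClosed.exists_pow_nat_eq c hpos
      refine ⟨algebraMap (AlgebraicClosure ℚ) (modularFunctionFieldBar N) b, ?_, ?_⟩
      · intro h0
        apply hu
        rw [hc, ← hb, map_pow, h0, zero_pow hn]
      · rw [hc, ← hb, map_pow]) hfx
  rw [hfg] at hRf
  exact hR.inj χ hχ g hg hRf

/-- Hecke operators on classes. -/
theorem IsKummerRel.isClassOf_hecke (hR : IsKummerRel N n R)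
    {ℓ : ℕ} (hℓ : ℓ.Prime) (hℓn : ¬ ℓ ∣ N * n)
    (hHI : haveI : NeZero ℓ := ⟨hℓ.ne_zero⟩; HeckeInputsAlong (AlgebraicClosure ℚ) N ℓ)
    {χ χ' : Additive (Gamma0 N) →+ ZMod n} (hχ : χ ∈ peHoms N n) (hχ' : χ' ∈ peHoms N n)
    (hT : IsHeckeImage N ℓ χ χ') {x : JZero N} (hx : IsClassOf R χ x) :
    IsClassOf R χ' (heckeOperatorBar N ⟨ℓ, hℓ⟩ x) := by
  haveI : NeZero ℓ := ⟨hℓ.ne_zero⟩
  obtain ⟨f, hRf, hfx⟩ := hx
  obtain ⟨hα, hβ, hP, hfin, hFI, hNF⟩ := hHI
  haveI := hP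
  refine ⟨_, hR.hecke ℓ hℓ hℓn χ hχ χ' hχ' hT f hfx.ne_zero hRf, ?_⟩
  have h1 : heckeOperatorBar N ⟨ℓ, hℓ⟩ x
      = Pic0.correspondence (heckeBetaBar (AlgebraicClosure ℚ) N ℓ)
          (heckeAlphaBar (AlgebraicClosure ℚ) N ℓ) hβ hα hFI hfin hNF x := by
    have h0 : heckeOperatorBar N ⟨ℓ, hℓ⟩ x
        = heckeOperatorAlong (AlgebraicClosure ℚ) N ℓ x := rfl
    rw [h0, heckeOperatorAlong_eq hα hβ hFI hfin hNF]
    rfl
  rw [h1]
  exact hfx.correspondence _ _ hβ hα hFI hfin hNF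

/-- **BR, top assembly** (any modulus `n ≠ 0`): an injective `ℤ/n`-linear map
`Hom_pe(Γ₀(N), ℤ/n) → J₀(N)[n]`, sending `χ` to its Kummer class, and intertwining the transfer
formula `IsHeckeImage` with the Prelude Hecke operator `T_ℓ` for all primes `ℓ ∤ N n`. -/
theorem exists_bridge_of_isKummerRel (N n : ℕ) [NeZero N] (hn : n ≠ 0)
    [HasPrincipalDivisors (AlgebraicClosure ℚ) (modularFunctionFieldBar N)]
    (hconst : ∀ u : modularFunctionFieldBar N, u ≠ 0 →
      (∀ v : Place (AlgebraicClosure ℚ) (modularFunctionFieldBar N), v.ord u = 0) →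
      ∃ c : AlgebraicClosure ℚ,
        u = algebraMap (AlgebraicClosure ℚ) (modularFunctionFieldBar N) c)
    (hHI : ∀ (ℓ : ℕ) (hℓ : ℓ.Prime), ¬ ℓ ∣ N * n →
      haveI : NeZero ℓ := ⟨hℓ.ne_zero⟩
      HeckeInputsAlong (AlgebraicClosure ℚ) N ℓ)
    {R : (Additive (Gamma0 N) →+ ZMod n) → modularFunctionFieldBar N → Prop}
    (hR : IsKummerRel N n R) :
    ∃ Ξ : peHoms N n →ₗ[ZMod n] Vp N n, Function.Injective Ξ ∧
      (∀ χ : peHoms N n,
        IsClassOf R (χ : Additive (Gamma0 N) →+ ZMod n) ((Ξ χ : Vp N n) : JZero N)) ∧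
      ∀ (ℓ : ℕ) (hℓ : ℓ.Prime), ¬ ℓ ∣ N * n → ∀ χ χ' : peHoms N n,
        IsHeckeImage N ℓ (χ : Additive (Gamma0 N) →+ ZMod n)
          (χ' : Additive (Gamma0 N) →+ ZMod n) →
        heckeTors N n ⟨ℓ, hℓ⟩ (Ξ χ) = Ξ χ' := by
  classical
  have hex : ∀ χ : peHoms N n, ∃ x : JZero N,
      IsClassOf R (χ : Additive (Gamma0 N) →+ ZMod n) x :=
    fun χ => hR.exists_isClassOf hn χ.2
  let ξ : peHoms N n → Vp N n := fun χ => ⟨(hex χ).choose, (hex χ).choose_spec.mem_torsion⟩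
  have hξ : ∀ χ : peHoms N n,
      IsClassOf R (χ : Additive (Gamma0 N) →+ ZMod n) ((ξ χ : Vp N n) : JZero N) :=
    fun χ => (hex χ).choose_spec
  have hadd : ∀ χ χ' : peHoms N n, ξ (χ + χ') = ξ χ + ξ χ' := by
    intro χ χ'
    apply Subtype.ext
    exact hR.isClassOf_unique hn (χ + χ').2 (hξ (χ + χ'))
      (hR.isClassOf_add χ.2 χ'.2 (hξ χ) (hξ χ'))
  have hzero : ξ 0 = 0 := by
    have := hadd 0 0
    rw [add_zero] at this
    exact left_eq_add.mp this
  let Ξ₀ : peHoms N n →+ Vp N n :=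
    { toFun := ξ
      map_zero' := hzero
      map_add' := hadd }
  refine ⟨Ξ₀.toZModLinearMap n, ?_, hξ, ?_⟩
  · rw [injective_iff_map_eq_zero]
    intro χ hχ0
    have h0 : ((ξ χ : Vp N n) : JZero N) = 0 := congrArg Subtype.val hχ0
    have h1 := hξ χ
    rw [h0] at h1
    exact Subtype.ext (hR.eq_zero_of_isClassOf_zero hn hconst χ.2 h1)
  · intro ℓ hℓ hℓn χ χ' hT
    apply Subtype.ext
    have h1 : IsClassOf R (χ' : Additive (Gamma0 N) →+ ZMod n)
        (heckeOperatorBar N ⟨ℓ, hℓ⟩ ((ξ χ : Vp N n) : JZero N)) :=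
      hR.isClassOf_hecke hℓ hℓn (hHI ℓ hℓ hℓn) χ.2 χ'.2 hT (hξ χ)
    exact hR.isClassOf_unique hn χ'.2 h1 (hξ χ')

/-- **BR in the exact shape of `Fermat.Agent.S29.M.exists_bridge`** (prime modulus), from the
abstract Kummer relation. -/
theorem exists_bridge_of_isKummerRel_prime (N p : ℕ) [NeZero N] (hp : p.Prime)
    [HasPrincipalDivisors (AlgebraicClosure ℚ) (modularFunctionFieldBar N)]
    (hconst : ∀ u : modularFunctionFieldBar N, u ≠ 0 →
      (∀ v : Place (AlgebraicClosure ℚ) (modularFunctionFieldBar N), v.ord u = 0) →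
      ∃ c : AlgebraicClosure ℚ,
        u = algebraMap (AlgebraicClosure ℚ) (modularFunctionFieldBar N) c)
    (hHI : ∀ (ℓ : ℕ) (hℓ : ℓ.Prime), ¬ ℓ ∣ N * p →
      haveI : NeZero ℓ := ⟨hℓ.ne_zero⟩
      HeckeInputsAlong (AlgebraicClosure ℚ) N ℓ)
    {R : (Additive (Gamma0 N) →+ ZMod p) → modularFunctionFieldBar N → Prop}
    (hR : IsKummerRel N p R) :
    ∃ Ξ : peHoms N p →ₗ[ZMod p] Vp N p, Function.Injective Ξ ∧
      ∀ (ℓ : ℕ) (hℓ : ℓ.Prime), ¬ ℓ ∣ N * p → ∀ χ χ' : peHoms N p,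
        IsHeckeImage N ℓ (χ : Additive (Gamma0 N) →+ ZMod p)
          (χ' : Additive (Gamma0 N) →+ ZMod p) →
        heckeTors N p ⟨ℓ, hℓ⟩ (Ξ χ) = Ξ χ' := by
  obtain ⟨Ξ, h1, -, h3⟩ := exists_bridge_of_isKummerRel N p hp.ne_zero hconst hHI hR
  exact ⟨Ξ, h1, h3⟩

end Assembly

end Fermat.Agent.S29.H621
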